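import Fermat.Agent.CFT.Wiles.Count
import Fermat.Agent.CFT.Flat.Bound

/-!
# A prime with scalar Frobenius fixes the trace zero matrices
-/

set_option autoImplicit false
set_option linter.style.haveILetI false

noncomputable section

namespace Fermat.Agent.RT.Strict

open Fermat.Agent.Deform Fermat.Agent.CFT.Tangent Fermat.Agent.Arith Module Polynomial
open Fermat.Agent.CFT.Wiles Fermat.Agent.CFT.Idele

variable {k : Type} [Field k] {r : Gal →* M2 k}

/-- A prime with scalar Frobenius fixes all trace zero matrices. -/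
theorem three_le_finrank_fixedOn {v : ℕ} [Fact v.Prime] (_h2 : (2 : k) ≠ 0)
    (hr : GaloisFactorsThroughFiniteLevel r)
    (hI : ∀ τ ∈ (padicPlace v).inertiaSubgroupIn ℚ, r τ = 1)
    (hF : ∀ F : Gal, (padicPlace v).IsFrobeniusAt F v → ∃ c : k, r F = c • 1) :
    3 ≤ finrank k (fixedOn r ((padicPlace v).decompositionSubgroup ℚ)) := by
  obtain ⟨L, hLf, hLn, hL⟩ := exists_common_level hr (⊥ : Submodule k (Gal → M2 k))
    (fun b hb => ⟨⊥, inferInstance, fun σ _ => by rw [(Submodule.mem_bot k).1 hb]; rfl⟩)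
  obtain ⟨F, hFF⟩ := exists_isFrobeniusAt (CFT.Local.padicPlace_liesOverPrime v) (Fact.out : v.Prime)
  obtain ⟨c, hc⟩ := hF F hFF
  have hle : LinearMap.ker (Matrix.traceLinearMap (Fin 2) k k) ≤
      fixedOn r ((padicPlace v).decompositionSubgroup ℚ) := by
    intro X hX
    refine ⟨LinearMap.mem_ker.1 hX, fun s hs => ?_⟩
    obtain ⟨i, τ, hτ, he⟩ := exists_frobenius_mul_inertia L hFF hs
    have e : r s = c ^ i • 1 := by
      rw [map_eq_of_agree (fun σ hσ => (hL σ hσ).1) he, map_mul, map_pow, hc, hI τ hτ, mul_one,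
        _root_.smul_pow, one_pow]
    calc r s * X * r s⁻¹ = X * (r s * r s⁻¹) := by
          rw [← mul_assoc, e, smul_mul_assoc, one_mul, mul_smul_comm, mul_one]
      _ = X := by rw [CFT.Tangent.map_mul_inv, mul_one]
  have h := (Matrix.traceLinearMap (Fin 2) k k).finrank_range_add_finrank_ker
  have h4 : finrank k (Matrix (Fin 2) (Fin 2) k) = 4 := by simp [Module.finrank_matrix]
  have h1 := (Submodule.finrank_le (LinearMap.range (Matrix.traceLinearMap (Fin 2) k k))).trans_eq
    (Module.finrank_self k)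
  have h5 : 3 ≤ finrank k (LinearMap.ker (Matrix.traceLinearMap (Fin 2) k k)) := by
    rw [h4] at h
    omega
  exact h5.trans (Submodule.finrank_mono hle)

end Fermat.Agent.RT.Strict
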