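import Fermat.Agent.CFT.Tangent.LocalBasic
import Fermat.Agent.CFT.Tangent.LocalPlace
import Fermat.Agent.CFT.TWPrimes.Irred
import Fermat.Prelude.Def_GaloisRep_Flat
import Fermat.Prelude.Def_GaloisRep_StrictOrdinary

/-!
# Tangent classes of flat and of strictly ordinary deformations
-/

set_option autoImplicit false
set_option linter.style.haveILetI false

noncomputable section

namespace Fermat.Agent.RT.Strict

open Fermat.Agent.Deform Fermat.Agent.CFT.Tangent Fermat.Agent.Arith Module Polynomial

/-- A first order deformation with class `b`, flat at `p` with cyclotomic determinant. -/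
def IsFlatClass {k : Type} [Field k] (p : ℕ) (r : Gal →* M2 k) (b : Gal → M2 k) : Prop :=
  ∃ (ρ : GaloisRepAdic (DualNumber k)) (B : Basis (Fin 2) (DualNumber k) ρ.V),
    ρ.IsFlatAt p ∧ ρ.DetIsCyclotomic p ∧ ∀ σ, matOf ρ B σ = (1 + epsM (b σ)) * inlM (r σ)

/-- A first order deformation with class `b`, strictly ordinary at `p` with cyclotomic
determinant. -/
def IsOrdClass {k : Type} [Field k] (p : ℕ) [Fact p.Prime] (r : Gal →* M2 k)
    (b : Gal → M2 k) : Prop :=
  ∃ (ρ : GaloisRepAdic (DualNumber k)) (B : Basis (Fin 2) (DualNumber k) ρ.V),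
    ρ.IsStrictOrdinaryAt p ∧ ρ.DetIsCyclotomic p ∧ ∀ σ, matOf ρ B σ = (1 + epsM (b σ)) * inlM (r σ)

end Fermat.Agent.RT.Strict

end
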